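/-
S24 package A5 (PlaceOf), independent copy by helper86: every embedding `φ x` of a `LocalData`
induces a place over the center, and only one.

The place is `laurentPlace (L.φ x)` of `Fermat.Agent.S24.H52` (valuation ring
`{f | 0 ≤ (φ x f).order}`); its `ord` is `(φ x f).order / e` for a fixed `e > 0`.
-/
import Fermat.Agent.S24.Defs
import Fermat.Agent.S24.H52.AddVal

set_option autoImplicit false

open AlgebraicCurve

noncomputable section

namespace Fermat.Agent.S24.H86

variable {K F X : Type*} [Field K] [Field F] [Algebra K F] [Fintype X]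
  {R : Subalgebra K F} {π : F}

/-- Two places with the same valuation subring are equal. -/
theorem place_ext {v w : Place K F} (h : v.toValuationSubring = w.toValuationSubring) :
    v = w := by
  cases v; cases w; cases h; rfl

/-- A place is determined by the sign of its `ord`. -/
theorem place_eq_of_ord_nonneg_iff {v w : Place K F}
    (h : ∀ f : F, f ≠ 0 → (0 ≤ v.ord f ↔ 0 ≤ w.ord f)) : v = w := by
  apply place_ext
  ext f
  by_cases hf : f = 0
  · subst hf
    simp
  · rw [H52.mem_iff_ord_nonneg v hf, H52.mem_iff_ord_nonneg w hf]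
    exact h f hf

theorem φ_π_ne_zero (L : LocalData K F X R π) (x : X) : L.φ x π ≠ 0 := by
  intro h
  have h1 := L.order_π x
  rw [h, HahnSeries.order_zero] at h1
  have := L.s_pos
  omega

theorem π_ne_zero_of (L : LocalData K F X R π) (x : X) : π ≠ 0 := by
  intro h
  apply φ_π_ne_zero L x
  have h0 : L.φ x 0 = 0 := map_zero _
  exact h ▸ h0

theorem exists_place_rel (L : LocalData K F X R π) (x : X) :
    ∃ v : Place K F, 0 < v.ord π ∧ L.Rel v x := by
  have hπ : π ≠ 0 := π_ne_zero_of L x
  have hK : ∀ a : K, algebraMap K F a ≠ 0 → 0 ≤ (L.φ x (algebraMap K F a)).order := by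
    intro a _
    rw [L.φ_algebraMap]
    exact le_of_eq (HahnSeries.order_C).symm
  have hneg : ∃ f : F, f ≠ 0 ∧ (L.φ x f).order < 0 := by
    refine ⟨π⁻¹, inv_ne_zero hπ, ?_⟩
    have h1 : (L.φ x π⁻¹).order = -(L.φ x π).order :=
      (H52.isAddVal_order (L.φ x)).map_inv hπ
    rw [h1, L.order_π x]
    have := L.s_pos
    omega
  obtain ⟨e, he, h⟩ := H52.exists_laurentPlace_ord_eq (K := K) (L.φ x) hK hneg
  refine ⟨H52.laurentPlace (L.φ x) hK hneg, ?_, ?_⟩
  · have h1 := h π hπ
    rw [L.order_π x] at h1
    have hs : (0 : ℤ) < L.s := by exact_mod_cast L.s_pos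
    by_contra hcon
    have : e * (H52.laurentPlace (K := K) (L.φ x) hK hneg).ord π ≤ 0 :=
      mul_nonpos_of_nonneg_of_nonpos he.le (not_lt.mp hcon)
    omega
  · intro f
    by_cases hf : f = 0
    · subst hf
      simp [Place.ord_zero]
    · have h1 := h π hπ
      rw [L.order_π x] at h1
      rw [h f hf, h1]
      ring

theorem rel_unique (L : LocalData K F X R π) {v v' : Place K F} (hv : 0 < v.ord π)
    (hv' : 0 < v'.ord π) {x : X} (h : L.Rel v x) (h' : L.Rel v' x) : v = v' := by
  have hs : (0 : ℤ) < L.s := by exact_mod_cast L.s_pos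
  have key : ∀ (w : Place K F), 0 < w.ord π → L.Rel w x → ∀ f : F,
      (0 ≤ w.ord f ↔ 0 ≤ (L.φ x f).order) := by
    intro w hw hrel f
    have h1 := hrel f
    constructor
    · intro h0
      have h2 : 0 ≤ (L.φ x f).order * w.ord π := by
        rw [h1]; exact mul_nonneg hs.le h0
      by_contra hcon
      have : (L.φ x f).order * w.ord π < 0 :=
        mul_neg_of_neg_of_pos (not_le.mp hcon) hw
      omega
    · intro h0
      have h2 : 0 ≤ (L.s : ℤ) * w.ord f := by
        rw [← h1]; exact mul_nonneg h0 hw.le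
      by_contra hcon
      have : (L.s : ℤ) * w.ord f < 0 :=
        mul_neg_of_pos_of_neg hs (not_le.mp hcon)
      omega
  apply place_eq_of_ord_nonneg_iff
  intro f _
  rw [key v hv h f, key v' hv' h' f]

end Fermat.Agent.S24.H86
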